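import Mathlib
import Fermat.Agent.LT.T7.Spec
import Fermat.Agent.S55.H414.CycloPow

/-!
# Row LT, tower T7, leaf T7.06 `DictFQC` (helper922) -- OFF-MAIN

`dictFQC922 : Fermat.Agent.LT.T7.DictFQC`, VERBATIM the Prop of `LT/T7/Spec.lean`
(helper797; built against v0, sha256 41dbc37a6d3e401a, and against v1.2, sha256 76a196044a64b920:
the Prop is byte-unchanged).

Content:
* `fieldF ρ = ℚ(ζ₃)` (`fieldF_eq922`): `det ρ` is the cyclotomic character modulo `3`, which is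
  `cycloPow 3` of the landed S55 block (helper414); infinite Galois correspondence;
* hence `fieldF ρ` is a `3`-rd cyclotomic extension of `ℚ`: no real place, one complex place
  (`isImagQuad_fieldF922`);
* a Frobenius element at `p ≠ 3` raises `ζ₃` to the power `p`, so `ordSL (ρ Frob_p)` is the order
  of `p` modulo `3` (`ordSL_frob922`);
* the residue degree of every place of `ℚ(ζ₃)` over `p ≠ 3` is the order of `p` modulo `3`
  (Mathlib, `IsCyclotomicExtension.Rat.inertiaDeg_eq_of_not_dvd`), so `N v = p ^ ordSL (ρ Frob_p)`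
  (`absNorm_eq922`);
* `MidData` at a place `v ∣ p` of `F` + the relation `IsBCQ` at `(p, v)` is `BotData` at `p`.

Imports: Mathlib, the spec of T7 (byte-identical copy), one plain module of main
(`Fermat.Agent.S55.H414.CycloPow`).
-/

set_option autoImplicit false
set_option linter.style.haveILetI false

open AutomorphicForm FLT.ExplicitLift EisensteinWeightOne
open WeierstrassCurve
open IsDedekindDomain NumberField
open scoped MatrixGroups

noncomputable section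

namespace Fermat.Agent.LT.T7.H922

open Fermat.Agent.LT.H130 Fermat.Agent.LT.H556 Fermat.Agent.LT.T7
open Fermat.Agent.S55.H414

local notation "Γℚ" => (AlgebraicClosure ℚ ≃ₐ[ℚ] AlgebraicClosure ℚ)

/-! ## 1. The field `F = fieldF ρ` is `ℚ(ζ₃)` -/

/-- The cyclotomic character modulo `3` of the Prelude is `cycloPow 3` of the S55 block. -/
theorem chi3_eq_cycloPow922 (σ : Γℚ) : modThreeCyclotomicChar σ = cycloPow 3 σ := by
  rw [modThreeCyclotomicChar_apply]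
  exact (IsPrimitiveRoot.autToPow_eq_modularCyclotomicCharacter 3 ℚ (zetaBar_spec 3) σ).symm

/-- `ρ⁻¹(SL₂(𝔽₃))` is the subgroup fixing `ℚ(ζ₃)`. -/
theorem subSL_eq922 {ρ : Γℚ →* GL (Fin 2) (ZMod 3)}
    {Ψ : GL (Fin 2) (ZMod 3) →* GL (Fin 2) (ℤ√(-2))} (hyp : LTB.Hyp ρ Ψ) :
    subSL ρ = (cycloLevel 3).fixingSubgroup := by
  rw [← ker_cycloPow]
  ext σ
  rw [subSL, MonoidHom.mem_ker, MonoidHom.mem_ker, MonoidHom.comp_apply, hyp.det,
    chi3_eq_cycloPow922]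

/-- `fieldF ρ = ℚ(ζ₃)`. -/
theorem fieldF_eq922 {ρ : Γℚ →* GL (Fin 2) (ZMod 3)}
    {Ψ : GL (Fin 2) (ZMod 3) →* GL (Fin 2) (ℤ√(-2))} (hyp : LTB.Hyp ρ Ψ) :
    fieldF ρ = cycloLevel 3 := by
  haveI : IsGalois ℚ (AlgebraicClosure ℚ) := Fermat.Agent.S55.Bridge.isGalois_Qbar
  rw [fieldF, subSL_eq922 hyp]
  exact InfiniteGalois.fixedField_fixingSubgroup (cycloLevel 3)

/-- `fieldF ρ` is a `3`-rd cyclotomic extension of `ℚ`. -/
theorem isCyclotomicExtension_fieldF922 {ρ : Γℚ →* GL (Fin 2) (ZMod 3)}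
    {Ψ : GL (Fin 2) (ZMod 3) →* GL (Fin 2) (ℤ√(-2))} (hyp : LTB.Hyp ρ Ψ) :
    IsCyclotomicExtension {3} ℚ (fieldF ρ) := by
  rw [fieldF_eq922 hyp]
  infer_instance

/-- A number field which is a `3`-rd cyclotomic extension of `ℚ` is imaginary quadratic. -/
theorem isImagQuad_of_cyclotomic_three922 (K : Type) [Field K] [NumberField K]
    [IsCyclotomicExtension {3} ℚ K] : IsImagQuad K := by
  have h0 : InfinitePlace.nrRealPlaces K = 0 :=
    IsCyclotomicExtension.Rat.nrRealPlaces_eq_zero (n := 3) K (by norm_num)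
  have h1 : InfinitePlace.nrComplexPlaces K = 1 := by
    rw [IsCyclotomicExtension.Rat.nrComplexPlaces_eq_totient_div_two (n := 3) K]
    decide
  have htc : IsTotallyComplex K := NumberField.nrRealPlaces_eq_zero_iff.mp h0
  refine ⟨?_, fun w => htc.isComplex w⟩
  rw [Nat.card_eq_fintype_card, InfinitePlace.card_eq_nrRealPlaces_add_nrComplexPlaces, h0, h1]

/-- **`fieldF ρ` is imaginary quadratic.** -/
theorem isImagQuad_fieldF922 {ρ : Γℚ →* GL (Fin 2) (ZMod 3)}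
    {Ψ : GL (Fin 2) (ZMod 3) →* GL (Fin 2) (ℤ√(-2))} (hyp : LTB.Hyp ρ Ψ)
    [NumberField (fieldF ρ)] : IsImagQuad (fieldF ρ) := by
  haveI := isCyclotomicExtension_fieldF922 hyp
  exact isImagQuad_of_cyclotomic_three922 (fieldF ρ)

/-! ## 2. Frobenius elements and the order of `p` modulo `3` -/

/-- A Frobenius element at `p ≠ 3` has cyclotomic character `p` modulo `3`. -/
theorem cycloPow_frob922 {p : ℕ} (hp : p.Prime) (hp3 : p ≠ 3)
    {A : ValuationSubring (AlgebraicClosure ℚ)} (hA : A.LiesOverPrime p) {σ : Γℚ}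
    (hσ : A.IsFrobeniusAt σ p) :
    ((cycloPow 3 σ : (ZMod 3)ˣ) : ZMod 3) = ((p : ℕ) : ZMod 3) := by
  have hNv : A.valuation (((3 : ℕ) : ℕ) : AlgebraicClosure ℚ) = 1 :=
    Fermat.Agent.S55.Bridge.val_prime_eq_one hA hp Nat.prime_three hp3
  exact coe_cycloPow_of_apply_eq_pow 3 σ p
    (IsFrobeniusAt_apply_root hσ (by norm_num) hNv (zetaBar_spec 3).pow_eq_one)

/-- In `(ZMod 3)ˣ` the order of `u` is `1` if `u = 1` and `2` otherwise. -/
theorem orderOf_unit_three922 (u : (ZMod 3)ˣ) :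
    orderOf u = if u = 1 then 1 else 2 := by
  have h : ∀ u : (ZMod 3)ˣ, u = 1 ∨ (u ≠ 1 ∧ u ^ 2 = 1) := by decide
  rcases h u with rfl | ⟨h1, h2⟩
  · simp
  · rw [if_neg h1]
    exact orderOf_eq_prime h2 h1

/-- **`ordSL (ρ Frob_p)` is the order of `p` modulo `3`.** -/
theorem ordSL_frob922 {ρ : Γℚ →* GL (Fin 2) (ZMod 3)}
    {Ψ : GL (Fin 2) (ZMod 3) →* GL (Fin 2) (ℤ√(-2))} (hyp : LTB.Hyp ρ Ψ)
    {p : ℕ} (hp : p.Prime) (hp3 : p ≠ 3)
    {A : ValuationSubring (AlgebraicClosure ℚ)} (hA : A.LiesOverPrime p) {σ : Γℚ}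
    (hσ : A.IsFrobeniusAt σ p) :
    ordSL (ρ σ) = orderOf ((p : ℕ) : ZMod 3) := by
  rw [← cycloPow_frob922 hp hp3 hA hσ, orderOf_units, orderOf_unit_three922, ordSL, hyp.det,
    chi3_eq_cycloPow922]

/-! ## 3. Places of a `3`-rd cyclotomic field over `p ≠ 3` -/

/-- Every prime number lies in some finite place of a number field. -/
theorem exists_place_over922 (K : Type) [Field K] [NumberField K] {p : ℕ} (hp : p.Prime) :
    ∃ v : HeightOneSpectrum (𝓞 K), ((p : ℕ) : 𝓞 K) ∈ v.asIdeal := by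
  haveI : Fact p.Prime := ⟨hp⟩
  obtain ⟨P, hPmax, hPover⟩ :=
    Ideal.exists_maximal_ideal_liesOver_of_isIntegral (S := 𝓞 K) (Ideal.span {(p : ℤ)})
  have hmem : ((p : ℕ) : 𝓞 K) ∈ P := by
    have h1 : (p : ℤ) ∈ P.under ℤ := by
      rw [← hPover.over]
      exact Ideal.mem_span_singleton_self _
    simpa [Ideal.under_def] using h1
  have hne : P ≠ ⊥ := by
    rintro rfl
    have h0 : ((p : ℕ) : 𝓞 K) = 0 := by simpa using hmem
    exact hp.ne_zero (by exact_mod_cast h0)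
  exact ⟨⟨P, hPmax.isPrime, hne⟩, hmem⟩

/-- **The norm of a place of `ℚ(ζ₃)` over `p ≠ 3`** is `p ^ (order of p modulo 3)`. -/
theorem absNorm_eq922 (K : Type) [Field K] [NumberField K] [IsCyclotomicExtension {3} ℚ K]
    {p : ℕ} (hp : p.Prime) (hp3 : p ≠ 3) (v : HeightOneSpectrum (𝓞 K))
    (hv : ((p : ℕ) : 𝓞 K) ∈ v.asIdeal) :
    Ideal.absNorm v.asIdeal = p ^ orderOf ((p : ℕ) : ZMod 3) := by
  haveI : Fact p.Prime := ⟨hp⟩
  haveI : v.asIdeal.IsPrime := v.isPrime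
  haveI hover : v.asIdeal.LiesOver (Ideal.span {(p : ℤ)}) :=
    (Ideal.liesOver_span_iff v.isPrime.ne_top (Nat.prime_iff_prime_int.mp hp)).mpr
      (by simpa using hv)
  haveI : v.asIdeal.IsMaximal := v.isMaximal
  have hm : ¬ p ∣ 3 := fun h => hp3 ((Nat.prime_dvd_prime_iff_eq hp Nat.prime_three).mp h)
  rw [Ideal.absNorm_eq_pow_inertiaDeg' v.asIdeal hp, Ideal.inertiaDeg'_eq_inertiaDeg,
    IsCyclotomicExtension.Rat.inertiaDeg_eq_of_not_dvd p K v.asIdeal hm]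

/-! ## 4. The leaf -/

/-- **LEAF T7.06 `DictFQC`.** -/
theorem dictFQC922 : DictFQC := by
  intro ρ Ψ ι hyp nfF
  haveI := nfF
  haveI hcyc := isCyclotomicExtension_fieldF922 hyp
  refine ⟨isImagQuad_fieldF922 hyp, ?_⟩
  rintro πF ⟨S₁, h₁⟩ π ⟨S₂, h₂⟩
  refine ⟨S₁ ∪ S₂ ∪ {3}, ?_⟩
  intro p hp hpS A hA σ hσ w hw
  simp only [Finset.mem_union, Finset.mem_singleton, not_or] at hpS
  obtain ⟨⟨hp1, hp2⟩, hp3⟩ := hpS
  obtain ⟨v, hv⟩ := exists_place_over922 (fieldF ρ) hp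
  have hmid := h₁ p hp hp1 A hA σ hσ v hv
  dsimp only at hmid
  have hN := absNorm_eq922 (fieldF ρ) hp hp3 v hv
  rw [← ordSL_frob922 hyp hp hp3 hA hσ] at hN
  obtain ⟨ha, hb⟩ := h₂ p hp hp2 w hw v (ordSL (ρ σ)) hv hN
  rw [ha, hb] at hmid
  exact hmid

end Fermat.Agent.LT.T7.H922

end
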