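import Mathlib

/-!
# Row LT, tower T7 (helper922): convolution operators on a group with a Haar measure

OFF-MAIN, Mathlib only.  For a topological group `G` with a left invariant measure `μ` which is
finite on compact sets, continuous functions `φ₁, φ₂` with compact support and a continuous
function `ψ`:

* `rconv_conv_core922`: `R(φ₁ ⋆ φ₂) ψ = R(φ₁) (R(φ₂) ψ)`;
* `rconv_ltr_core922`: `R(φ(b⁻¹ ·)) ψ = (R(φ) ψ)(· b)`;
* `rconv_lsum_core922`: `R(∑_h φ(h⁻¹ ·)) ψ = ∑_h (R(φ) ψ)(· h)`;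
* `continuous_ltr922`, `hasCompactSupport_ltr922`, `continuous_lsum922`,
  `hasCompactSupport_lsum922`.
-/

set_option autoImplicit false
set_option linter.unusedSectionVars false

open MeasureTheory

noncomputable section

namespace Fermat.Agent.LT.T7.H922

section Core

variable {G : Type*} [Group G] [TopologicalSpace G] [IsTopologicalGroup G]
  [MeasurableSpace G] [BorelSpace G]

theorem continuous_ltr922 {φ : G → ℂ} (h : Continuous φ) (b : G) :
    Continuous fun y => φ (b⁻¹ * y) :=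
  h.comp (continuous_const.mul continuous_id)

theorem hasCompactSupport_ltr922 {φ : G → ℂ} (h : HasCompactSupport φ) (b : G) :
    HasCompactSupport fun y => φ (b⁻¹ * y) :=
  h.comp_homeomorph (Homeomorph.mulLeft b⁻¹)

theorem continuous_lsum922 {φ : G → ℂ} (h : Continuous φ) (H : Finset G) :
    Continuous fun y => ∑ b ∈ H, φ (b⁻¹ * y) :=
  continuous_finsetSum _ fun b _ => continuous_ltr922 h b

theorem hasCompactSupport_lsum922 {φ : G → ℂ} (h : HasCompactSupport φ) (H : Finset G) :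
    HasCompactSupport fun y => ∑ b ∈ H, φ (b⁻¹ * y) := by
  classical
  induction H using Finset.induction_on with
  | empty =>
    simp only [Finset.sum_empty]
    exact HasCompactSupport.zero
  | insert a s ha ih =>
    have e : (fun y => ∑ b ∈ insert a s, φ (b⁻¹ * y))
        = (fun y => φ (a⁻¹ * y)) + fun y => ∑ b ∈ s, φ (b⁻¹ * y) := by
      funext y
      simp [Finset.sum_insert ha]
    rw [e]
    exact (hasCompactSupport_ltr922 h a).add ih

theorem hasCompactSupport_const_mul922 {φ : G → ℂ} (h : HasCompactSupport φ) (c : ℂ) :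
    HasCompactSupport fun y => c * φ y :=
  h.mono fun y hy hφ => hy (by simp [hφ])

variable (μ : Measure G)

/-- Integrability of `φ · ψ(x ·)`. -/
theorem integrable_mul_shift922 [IsFiniteMeasureOnCompacts μ] {φ ψ : G → ℂ} (h : Continuous φ)
    (h' : HasCompactSupport φ) (hψ : Continuous ψ) (x : G) :
    Integrable (fun y => φ y * ψ (x * y)) μ :=
  (h.mul (hψ.comp (continuous_const.mul continuous_id))).integrable_of_hasCompactSupport
    (h'.mul_right)

/-- `R(φ(b⁻¹ ·)) ψ (x) = R(φ) ψ (x b)`. -/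
theorem rconv_ltr_core922 [μ.IsMulLeftInvariant] (φ ψ : G → ℂ) (b x : G) :
    ∫ y, φ (b⁻¹ * y) * ψ (x * y) ∂μ = ∫ y, φ y * ψ (x * b * y) ∂μ := by
  have h := integral_mul_left_eq_self (μ := μ) (fun y => φ (b⁻¹ * y) * ψ (x * y)) b
  rw [← h]
  refine integral_congr_ae (Filter.Eventually.of_forall fun y => ?_)
  simp only [inv_mul_cancel_left, mul_assoc]

/-- `R(∑_h φ(h⁻¹ ·)) ψ (x) = ∑_h R(φ) ψ (x h)`. -/
theorem rconv_lsum_core922 [μ.IsMulLeftInvariant] [IsFiniteMeasureOnCompacts μ] {φ ψ : G → ℂ}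
    (h : Continuous φ) (h' : HasCompactSupport φ) (hψ : Continuous ψ) (H : Finset G) (x : G) :
    ∫ y, (∑ b ∈ H, φ (b⁻¹ * y)) * ψ (x * y) ∂μ = ∑ b ∈ H, ∫ y, φ y * ψ (x * b * y) ∂μ := by
  have e : (fun y => (∑ b ∈ H, φ (b⁻¹ * y)) * ψ (x * y))
      = fun y => ∑ b ∈ H, φ (b⁻¹ * y) * ψ (x * y) := by
    funext y
    rw [Finset.sum_mul]
  rw [e, integral_finsetSum]
  · exact Finset.sum_congr rfl fun b _ => rconv_ltr_core922 μ φ ψ b x
  · intro b _
    exact integrable_mul_shift922 μ (continuous_ltr922 h b) (hasCompactSupport_ltr922 h' b) hψ x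

/-- `R(φ₁ ⋆ φ₂) ψ = R(φ₁) (R(φ₂) ψ)`. -/
theorem rconv_conv_core922 [μ.IsMulLeftInvariant] [IsFiniteMeasureOnCompacts μ]
    {φ₁ φ₂ ψ : G → ℂ} (h1 : Continuous φ₁) (h1' : HasCompactSupport φ₁)
    (h2 : Continuous φ₂) (h2' : HasCompactSupport φ₂) (hψ : Continuous ψ) (x : G) :
    ∫ y, (∫ w, φ₁ w * φ₂ (w⁻¹ * y) ∂μ) * ψ (x * y) ∂μ
      = ∫ w, φ₁ w * (∫ y, φ₂ y * ψ (x * w * y) ∂μ) ∂μ := by
  have hc : Continuous (Function.uncurry fun (y w : G) => φ₁ w * φ₂ (w⁻¹ * y) * ψ (x * y)) := by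
    have c1 : Continuous fun p : G × G => φ₁ p.2 := h1.comp continuous_snd
    have c2 : Continuous fun p : G × G => φ₂ (p.2⁻¹ * p.1) :=
      h2.comp (continuous_snd.inv.mul continuous_fst)
    have c3 : Continuous fun p : G × G => ψ (x * p.1) :=
      hψ.comp (continuous_const.mul continuous_fst)
    exact (c1.mul c2).mul c3
  have hcs : HasCompactSupport
      (Function.uncurry fun (y w : G) => φ₁ w * φ₂ (w⁻¹ * y) * ψ (x * y)) := by
    refine HasCompactSupport.intro ((h1'.isCompact.mul h2'.isCompact).prod h1'.isCompact) ?_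
    rintro ⟨y, w⟩ hyw
    simp only [Function.uncurry]
    by_cases hw : w ∈ tsupport φ₁
    · have hy : w⁻¹ * y ∉ tsupport φ₂ := by
        intro hy
        apply hyw
        refine ⟨?_, hw⟩
        exact Set.mem_mul.2 ⟨w, hw, w⁻¹ * y, hy, by simp⟩
      rw [image_eq_zero_of_notMem_tsupport hy]
      simp
    · rw [image_eq_zero_of_notMem_tsupport hw]
      simp
  calc ∫ y, (∫ w, φ₁ w * φ₂ (w⁻¹ * y) ∂μ) * ψ (x * y) ∂μ
      = ∫ y, ∫ w, φ₁ w * φ₂ (w⁻¹ * y) * ψ (x * y) ∂μ ∂μ := by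
        refine integral_congr_ae (Filter.Eventually.of_forall fun y => ?_)
        exact (integral_mul_const _ _).symm
    _ = ∫ w, ∫ y, φ₁ w * φ₂ (w⁻¹ * y) * ψ (x * y) ∂μ ∂μ :=
        integral_integral_swap_of_hasCompactSupport hc hcs
    _ = ∫ w, φ₁ w * (∫ y, φ₂ y * ψ (x * w * y) ∂μ) ∂μ := by
        refine integral_congr_ae (Filter.Eventually.of_forall fun w => ?_)
        show ∫ y, φ₁ w * φ₂ (w⁻¹ * y) * ψ (x * y) ∂μ = φ₁ w * ∫ y, φ₂ y * ψ (x * w * y) ∂μ
        rw [← rconv_ltr_core922 μ φ₂ ψ w x, ← integral_const_mul]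
        refine integral_congr_ae (Filter.Eventually.of_forall fun y => ?_)
        show φ₁ w * φ₂ (w⁻¹ * y) * ψ (x * y) = φ₁ w * (φ₂ (w⁻¹ * y) * ψ (x * y))
        ring

end Core

end Fermat.Agent.LT.T7.H922

end
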