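import Mathlib
import Fermat.Agent.LT.T7.H893.SupplyFamSpec
import Fermat.Agent.LT.T7.H922.ConvCore

/-!
# Row LT, tower T7, node T7.L2.1.F `FamC` (helper922): the operator formulas of the families

OFF-MAIN.  On `LT/T7/H893/SupplyFamSpec.lean` (helper893, sha256 32dee4c883d1) and the
Mathlib-only core `LT/T7/H922/ConvCore.lean`.  For a Haar measure `μ` of `GL₂(𝔸_K)`, continuous
functions `φ, φ₁, φ₂` with compact support and a continuous function `ψ`:

* `rconv_conv922`: `R(φ₁ ⋆ φ₂) ψ = R(φ₁) (R(φ₂) ψ)`;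
* `rconv_ltr922`, `rconv_lsum922`, `rconv_iwL922`, `rconv_iwL_iter922`, `rconv_regL922`:
  `R(regL w z H k m φ) ψ = shiftOp z k ((iwOp w H)^[m] (R(φ) ψ))`;
* the operations `ltr`, `lsum`, `iwL`, `regL` preserve continuity and compact support.
-/

set_option autoImplicit false
set_option linter.unusedSectionVars false

open AutomorphicForm IsDedekindDomain NumberField MeasureTheory
open scoped ComplexConjugate

noncomputable section

namespace Fermat.Agent.LT.T7.H922

open Fermat.Agent.LT.H556 Fermat.Agent.LT.H556.A0 Fermat.Agent.LT.T7 Fermat.Agent.LT.T7.H893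

attribute [local instance] Fermat.Agent.LT.T5.instMeasurableSpaceG

section Ops

variable {K : Type} [Field K] [NumberField K]

/-- The Borel structure of `GL₂(𝔸_K)` (for the local measurable space of T5). -/
theorem borelSpaceG922 : BorelSpace (G K) := ⟨rfl⟩

attribute [local instance] borelSpaceG922

/-! ### Continuity and compact support -/

theorem continuous_ltrT922 {φ : G K → ℂ} (h : Continuous φ) (b : G K) :
    Continuous (ltr b φ) :=
  continuous_ltr922 h b

theorem hasCompactSupport_ltrT922 {φ : G K → ℂ} (h : HasCompactSupport φ) (b : G K) :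
    HasCompactSupport (ltr b φ) :=
  hasCompactSupport_ltr922 h b

theorem continuous_lsumT922 {φ : G K → ℂ} (h : Continuous φ) (H : Finset (G K)) :
    Continuous (lsum H φ) :=
  continuous_lsum922 h H

theorem hasCompactSupport_lsumT922 {φ : G K → ℂ} (h : HasCompactSupport φ) (H : Finset (G K)) :
    HasCompactSupport (lsum H φ) :=
  hasCompactSupport_lsum922 h H

theorem continuous_iwL922 {φ : G K → ℂ} (h : Continuous φ) (w : HeightOneSpectrum (𝓞 K))
    (H : Finset (G K)) : Continuous (iwL w H φ) :=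
  continuous_const.mul (continuous_lsum922 h H)

theorem hasCompactSupport_iwL922 {φ : G K → ℂ} (h : HasCompactSupport φ)
    (w : HeightOneSpectrum (𝓞 K)) (H : Finset (G K)) : HasCompactSupport (iwL w H φ) :=
  hasCompactSupport_const_mul922 (hasCompactSupport_lsum922 h H) _

theorem continuous_iwL_iter922 {φ : G K → ℂ} (h : Continuous φ) (w : HeightOneSpectrum (𝓞 K))
    (H : Finset (G K)) (m : ℕ) : Continuous ((iwL w H)^[m] φ) := by
  induction m with
  | zero => simpa using h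
  | succ m ih =>
    rw [Function.iterate_succ_apply']
    exact continuous_iwL922 ih w H

theorem hasCompactSupport_iwL_iter922 {φ : G K → ℂ} (h : HasCompactSupport φ)
    (w : HeightOneSpectrum (𝓞 K)) (H : Finset (G K)) (m : ℕ) :
    HasCompactSupport ((iwL w H)^[m] φ) := by
  induction m with
  | zero => simpa using h
  | succ m ih =>
    rw [Function.iterate_succ_apply']
    exact hasCompactSupport_iwL922 ih w H

theorem continuous_regL922 {φ : G K → ℂ} (h : Continuous φ) (w : HeightOneSpectrum (𝓞 K))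
    (z : G K) (H : Finset (G K)) (k : ℤ) (m : ℕ) : Continuous (regL w z H k m φ) :=
  continuous_ltrT922 (continuous_iwL_iter922 h w H m) _

theorem hasCompactSupport_regL922 {φ : G K → ℂ} (h : HasCompactSupport φ)
    (w : HeightOneSpectrum (𝓞 K)) (z : G K) (H : Finset (G K)) (k : ℤ) (m : ℕ) :
    HasCompactSupport (regL w z H k m φ) :=
  hasCompactSupport_ltrT922 (hasCompactSupport_iwL_iter922 h w H m) _

/-! ### The operator formulas -/

variable (μ : Measure (G K)) [μ.IsHaarMeasure]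

/-- `R(φ₁ ⋆ φ₂) ψ = R(φ₁) (R(φ₂) ψ)`. -/
theorem rconv_conv922 {φ₁ φ₂ ψ : G K → ℂ} (h1 : Continuous φ₁) (h1' : HasCompactSupport φ₁)
    (h2 : Continuous φ₂) (h2' : HasCompactSupport φ₂) (hψ : Continuous ψ) (x : G K) :
    T5.Rconv μ (T5.conv μ φ₁ φ₂) ψ x = T5.Rconv μ φ₁ (T5.Rconv μ φ₂ ψ) x :=
  rconv_conv_core922 μ h1 h1' h2 h2' hψ x

/-- `R(ltr b φ) ψ (x) = R(φ) ψ (x b)`. -/
theorem rconv_ltr922 (φ ψ : G K → ℂ) (b x : G K) :
    T5.Rconv μ (ltr b φ) ψ x = T5.Rconv μ φ ψ (x * b) :=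
  rconv_ltr_core922 μ φ ψ b x

/-- `R(lsum H φ) ψ = cosetOp H (R(φ) ψ)`. -/
theorem rconv_lsum922 {φ ψ : G K → ℂ} (h : Continuous φ) (h' : HasCompactSupport φ)
    (hψ : Continuous ψ) (H : Finset (G K)) (x : G K) :
    T5.Rconv μ (lsum H φ) ψ x = cosetOp H (T5.Rconv μ φ ψ) x :=
  rconv_lsum_core922 μ h h' hψ H x

/-- `R(iwL w H φ) ψ = iwOp w H (R(φ) ψ)`. -/
theorem rconv_iwL922 {φ ψ : G K → ℂ} (h : Continuous φ) (h' : HasCompactSupport φ)
    (hψ : Continuous ψ) (w : HeightOneSpectrum (𝓞 K)) (H : Finset (G K)) (x : G K) :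
    T5.Rconv μ (iwL w H φ) ψ x = iwOp w H (T5.Rconv μ φ ψ) x := by
  show ∫ y, (((Real.sqrt (Ideal.absNorm w.asIdeal : ℝ) : ℝ) : ℂ)⁻¹ * ∑ b ∈ H, φ (b⁻¹ * y))
      * ψ (x * y) ∂μ
    = ((Real.sqrt (Ideal.absNorm w.asIdeal : ℝ) : ℝ) : ℂ)⁻¹ * ∑ b ∈ H, ∫ y, φ y * ψ (x * b * y) ∂μ
  rw [← rconv_lsum_core922 μ h h' hψ H x, ← integral_const_mul]
  refine integral_congr_ae (Filter.Eventually.of_forall fun y => ?_)
  show _ * _ * _ = _ * (_ * _)
  ring

/-- `R((iwL w H)^[m] φ) ψ = (iwOp w H)^[m] (R(φ) ψ)`. -/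
theorem rconv_iwL_iter922 {φ ψ : G K → ℂ} (h : Continuous φ) (h' : HasCompactSupport φ)
    (hψ : Continuous ψ) (w : HeightOneSpectrum (𝓞 K)) (H : Finset (G K)) (m : ℕ) :
    T5.Rconv μ ((iwL w H)^[m] φ) ψ = (iwOp w H)^[m] (T5.Rconv μ φ ψ) := by
  induction m with
  | zero => rfl
  | succ m ih =>
    rw [Function.iterate_succ_apply', Function.iterate_succ_apply', ← ih]
    funext x
    exact rconv_iwL922 μ (continuous_iwL_iter922 h w H m) (hasCompactSupport_iwL_iter922 h' w H m)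
      hψ w H x

/-- `R(regL w z H k m φ) ψ = shiftOp z k ((iwOp w H)^[m] (R(φ) ψ))`. -/
theorem rconv_regL922 {φ ψ : G K → ℂ} (h : Continuous φ) (h' : HasCompactSupport φ)
    (hψ : Continuous ψ) (w : HeightOneSpectrum (𝓞 K)) (z : G K) (H : Finset (G K)) (k : ℤ)
    (m : ℕ) :
    T5.Rconv μ (regL w z H k m φ) ψ = shiftOp z k ((iwOp w H)^[m] (T5.Rconv μ φ ψ)) := by
  funext x
  show T5.Rconv μ (ltr (z ^ k) ((iwL w H)^[m] φ)) ψ x = _
  rw [rconv_ltr922, rconv_iwL_iter922 μ h h' hψ w H m]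
  rfl

/-! ### The operators on the zero function -/

theorem iwOp_zero922 (w : HeightOneSpectrum (𝓞 K)) (H : Finset (G K)) :
    iwOp w H (fun _ => (0 : ℂ)) = fun _ => 0 := by
  funext x
  simp [iwOp]

theorem iwOp_iter_zero922 (w : HeightOneSpectrum (𝓞 K)) (H : Finset (G K)) (m : ℕ) :
    (iwOp w H)^[m] (fun _ => (0 : ℂ)) = fun _ => 0 := by
  induction m with
  | zero => rfl
  | succ m ih => rw [Function.iterate_succ_apply', ih, iwOp_zero922]

theorem cosetOp_zero922 (H : Finset (G K)) : cosetOp H (fun _ => (0 : ℂ)) = fun _ => 0 := by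
  funext x
  simp [cosetOp]

theorem shiftOp_zero922 (z : G K) (k : ℤ) : shiftOp z k (fun _ => (0 : ℂ)) = fun _ => 0 := rfl

theorem rconv_zero922 (φ : G K → ℂ) (x : G K) : T5.Rconv μ φ (fun _ => (0 : ℂ)) x = 0 := by
  simp [T5.Rconv]

end Ops

end Fermat.Agent.LT.T7.H922

end
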