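import Mathlib
import Fermat.Agent.LT.T7.H893.SupplyFamSpec
import Fermat.Agent.LT.T7.H922.FamOps

/-!
# Row LT, tower T7, node T7.L2.1.F `FamC`, LEAVES T7.L2.1.F6 `ClassDownC` and T7.L2.1.F7
`CommDownC` (helper922, SPARES of rows 2254, 2255)

OFF-MAIN.  VERBATIM against `LT/T7/H893/SupplyFamSpec.lean` (helper893@5a34c9a24,
sha256 32dee4c883d1), unconditional:

* `classDownC922 : H893.ClassDownC K K'`;
* `commDownC922 : H893.CommDownC K K'`.

`f [] 0 0 = F₁ [] ⋆ f₂` and `R(F₁ [] ⋆ f₂) = R(F₁ []) R(f₂)` on continuous functions.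
-/

set_option autoImplicit false

open AutomorphicForm IsDedekindDomain NumberField MeasureTheory
open scoped ComplexConjugate

noncomputable section

namespace Fermat.Agent.LT.T7.H922

open Fermat.Agent.LT.H556 Fermat.Agent.LT.H556.A0 Fermat.Agent.LT.T7 Fermat.Agent.LT.T7.H893

attribute [local instance] Fermat.Agent.LT.T5.instMeasurableSpaceG
attribute [local instance] borelSpaceG922

section One

variable {K : Type} [Field K] [NumberField K]

theorem regL_zero922 (w : HeightOneSpectrum (𝓞 K)) (z : G K) (H : Finset (G K))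
    (φ : G K → ℂ) : regL w z H 0 0 φ = φ := by
  funext y
  simp [regL, ltr]

theorem continuous_iwOp922 {ψ : G K → ℂ} (h : Continuous ψ) (w : HeightOneSpectrum (𝓞 K))
    (H : Finset (G K)) : Continuous (iwOp w H ψ) :=
  continuous_const.mul
    (continuous_finsetSum _ fun _ _ => h.comp (continuous_id.mul continuous_const))

theorem continuous_shiftOp922 {ψ : G K → ℂ} (h : Continuous ψ) (z : G K) (k : ℤ) :
    Continuous (shiftOp z k ψ) :=
  h.comp (continuous_id.mul continuous_const)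

end One

variable (K K' : Type) [Field K] [NumberField K] [Field K'] [NumberField K'] [Algebra K K']

/-- `R(f [] 0 0) = R(F₁ []) R(f₂)` on continuous functions. -/
theorem rconv_down_nil922 {ℓ : ℕ} {Φ : HeckeEigensystem K' ℂ} {B : L2Base K K'}
    (hB : IsL2Base ℓ Φ B) {g : G K'} {E : L2Pre K K'} (hE : IsL2Pre ℓ Φ B g E)
    {ψ : G K → ℂ} (hψ : Continuous ψ) :
    T5.Rconv B.R.μ (E.down B [] 0 0) ψ
      = T5.Rconv B.R.μ (E.F₁ []) (T5.Rconv B.R.μ E.f₂ ψ) := by
  have : B.R.μ.IsHaarMeasure := hB.frame.frame.haar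
  have hnil : ∀ x ∈ ([] : List (Gen K')), x.Out B.S' := fun x hx => by simp at hx
  have h1 := hE.dn1_test [] hnil
  have h2 := hE.dn2_test
  funext x
  show T5.Rconv B.R.μ (T5.conv B.R.μ (E.F₁ []) (regL B.u E.z E.H 0 0 E.f₂)) ψ x = _
  rw [regL_zero922]
  exact rconv_conv922 B.R.μ h1.cont h1.supp h2.cont h2.supp hψ x

/-- **LEAF T7.L2.1.F6 = CLASS-DOWN** (`H893.ClassDownC`, verbatim). -/
theorem classDownC922 : ClassDownC K K' := by
  intro ℓ Φ B hB g _ E hE ψ c hψ
  rw [rconv_down_nil922 K K' hB hE hψ.inv.cusp.cont]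
  exact hE.dn1_class _ c (hE.dn2_class ψ c hψ)

/-- **LEAF T7.L2.1.F7 = COMM-DOWN** (`H893.CommDownC`, verbatim). -/
theorem commDownC922 : CommDownC K K' := by
  intro ℓ Φ B hB g _ E hE ψ hψ H z hH hz
  have hc : Continuous ψ := hψ.cusp.cont
  have h2 := hE.dn2_comm ψ hψ H z hH hz
  have h1 := hE.dn1_comm _ (hE.dn2_wfn ψ hψ) H z hH hz
  constructor
  · intro x
    rw [rconv_down_nil922 K K' hB hE (continuous_iwOp922 hc B.u H),
      rconv_down_nil922 K K' hB hE hc]
    have e : T5.Rconv B.R.μ E.f₂ (iwOp B.u H ψ) = iwOp B.u H (T5.Rconv B.R.μ E.f₂ ψ) :=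
      funext h2.1
    rw [e]
    exact h1.1 x
  · intro k x
    rw [rconv_down_nil922 K K' hB hE (continuous_shiftOp922 hc z k),
      rconv_down_nil922 K K' hB hE hc]
    have e : T5.Rconv B.R.μ E.f₂ (shiftOp z k ψ) = shiftOp z k (T5.Rconv B.R.μ E.f₂ ψ) :=
      funext (h2.2 k)
    rw [e]
    exact h1.2 k x

end Fermat.Agent.LT.T7.H922

end
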