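import Mathlib
import Fermat.Agent.LT.T7.H445.StepMSpec
import Fermat.Agent.LT.T7.H44.ArchComm
import Fermat.Agent.LT.T2.H197.S2RotLeaf

/-!
# Row LT, tower T7, cut of `B981.StepMC981` (helper445): the LOCAL SPHERE MEAN on `GL₂(ℂ)`
# (helper922, SPARE)

OFF-MAIN.  ADDITIVE (new names only, all ending in `922`).  `GL₂(ℂ)` only.  Closed assets:
`T2.H197.subS2Rot_stmt197` (rotation invariance of `sin β dβ dα`), `T7.H44` (the Gelfand pair
`(GL₂(ℂ), U(2))`), `T6.H8` (unimodularity), `T6.H698` (soft properties of the convolution).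

* `continuous_sph922`: the sphere family is continuous;
* `continuous_sphMeanC922`, `hasCompactSupport_sphMeanC922`, `isBiU_sphMeanC922`: the local sphere
  mean preserves continuity, compact support, bi-invariance under `U(2)`;
* `convInt_sphMeanC922`: `A ⋆ M B = M (A ⋆ B)` (Fubini);
* `sphMeanC_convInt922`: `M A ⋆ B = M (A ⋆ B)` (commutativity of the bi-invariant functions).
-/

set_option autoImplicit false
set_option linter.unusedSectionVars false
set_option linter.unusedVariables false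

open MeasureTheory Set
open scoped ComplexConjugate Pointwise

noncomputable section

namespace Fermat.Agent.LT.T7.H922

open Fermat.Agent.LT Fermat.Agent.LT.H556.A0 Fermat.Agent.LT.T7.H305 Fermat.Agent.LT.T7.H445
open Fermat.Agent.LT.T7.H44

/-! ## 1. Continuity of the sphere family -/

/-- A map to `GL₂(ℂ)` with continuous matrix is continuous. -/
theorem continuous_GL_of_val922 {X : Type*} [TopologicalSpace X] (f : X → GL (Fin 2) ℂ)
    (h : Continuous fun x => ((f x : GL (Fin 2) ℂ) : Matrix (Fin 2) (Fin 2) ℂ)) :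
    Continuous f := by
  rw [Units.continuous_iff]
  refine ⟨h, ?_⟩
  have hdet : ∀ x, ((f x : GL (Fin 2) ℂ) : Matrix (Fin 2) (Fin 2) ℂ).det ≠ 0 := fun x =>
    ((Matrix.isUnit_iff_isUnit_det _).1 (f x).isUnit).ne_zero
  have e : (fun x => (((f x)⁻¹ : GL (Fin 2) ℂ) : Matrix (Fin 2) (Fin 2) ℂ))
      = fun x => (((f x : GL (Fin 2) ℂ) : Matrix (Fin 2) (Fin 2) ℂ).det)⁻¹
          • ((f x : GL (Fin 2) ℂ) : Matrix (Fin 2) (Fin 2) ℂ).adjugate := by
    funext x
    rw [Matrix.coe_units_inv, Matrix.inv_def, Ring.inverse_eq_inv']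
  rw [e]
  exact (h.matrix_det.inv₀ hdet).smul h.matrix_adjugate

theorem continuous_rotZ922 : Continuous rotZ := by
  have e : rotZ = fun α : ℝ => !![Complex.exp (Complex.I * ((α / 2 : ℝ) : ℂ)), 0;
      0, Complex.exp (-(Complex.I * ((α / 2 : ℝ) : ℂ)))] := rfl
  rw [e]
  refine continuous_matrix fun i j => ?_
  fin_cases i <;> fin_cases j
  · show Continuous fun α : ℝ => Complex.exp (Complex.I * ((α / 2 : ℝ) : ℂ))
    fun_prop
  · show Continuous fun _ : ℝ => (0 : ℂ)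
    exact continuous_const
  · show Continuous fun _ : ℝ => (0 : ℂ)
    exact continuous_const
  · show Continuous fun α : ℝ => Complex.exp (-(Complex.I * ((α / 2 : ℝ) : ℂ)))
    fun_prop

theorem continuous_rotY922 : Continuous rotY := by
  have e : rotY = fun β : ℝ => !![((Real.cos (β / 2) : ℝ) : ℂ), -((Real.sin (β / 2) : ℝ) : ℂ);
      ((Real.sin (β / 2) : ℝ) : ℂ), ((Real.cos (β / 2) : ℝ) : ℂ)] := rfl
  rw [e]
  refine continuous_matrix fun i j => ?_
  fin_cases i <;> fin_cases j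
  · show Continuous fun β : ℝ => ((Real.cos (β / 2) : ℝ) : ℂ)
    fun_prop
  · show Continuous fun β : ℝ => -((Real.sin (β / 2) : ℝ) : ℂ)
    fun_prop
  · show Continuous fun β : ℝ => ((Real.sin (β / 2) : ℝ) : ℂ)
    fun_prop
  · show Continuous fun β : ℝ => ((Real.cos (β / 2) : ℝ) : ℂ)
    fun_prop

/-- The sphere family is continuous. -/
theorem continuous_sph922 {d : ℝ} {y : ℝ → ℝ → GL (Fin 2) ℂ} (hy : IsSphC445 d y) :
    Continuous (fun p : ℝ × ℝ => y p.1 p.2) := by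
  apply continuous_GL_of_val922
  have e : (fun p : ℝ × ℝ => ((y p.1 p.2 : GL (Fin 2) ℂ) : Matrix (Fin 2) (Fin 2) ℂ))
      = fun p => rotZ p.1 * rotY p.2 * torus d := funext fun p => hy p.1 p.2
  rw [e]
  exact ((continuous_rotZ922.comp continuous_fst).matrix_mul
    (continuous_rotY922.comp continuous_snd)).matrix_mul continuous_const

/-! ## 2. The local sphere mean preserves the good functions -/

section Mean

variable {d : ℝ} {y : ℝ → ℝ → GL (Fin 2) ℂ}

theorem sphMeanC_apply922 (y : ℝ → ℝ → GL (Fin 2) ℂ) (Φ : GL (Fin 2) ℂ → ℂ)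
    (g : GL (Fin 2) ℂ) :
    sphMeanC445 y Φ g = ∫ α in (0 : ℝ)..(2 * Real.pi), ∫ β in (0 : ℝ)..Real.pi,
      Φ (g * y α β) * ((Real.sin β : ℝ) : ℂ) := rfl

theorem continuous_sphMeanC922 (hy : IsSphC445 d y) {Φ : GL (Fin 2) ℂ → ℂ}
    (hΦ : Continuous Φ) : Continuous (sphMeanC445 y Φ) := by
  have hyc := continuous_sph922 hy
  have h1 : Continuous (Function.uncurry fun (q : GL (Fin 2) ℂ × ℝ) (β : ℝ) =>
      Φ (q.1 * y q.2 β) * ((Real.sin β : ℝ) : ℂ)) := by
    refine (hΦ.comp ?_).mul ?_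
    · exact (continuous_fst.comp continuous_fst).mul
        (hyc.comp ((continuous_snd.comp continuous_fst).prodMk continuous_snd))
    · exact Complex.continuous_ofReal.comp (Real.continuous_sin.comp continuous_snd)
  have h2 : Continuous fun q : GL (Fin 2) ℂ × ℝ =>
      ∫ β in (0 : ℝ)..Real.pi, Φ (q.1 * y q.2 β) * ((Real.sin β : ℝ) : ℂ) :=
    intervalIntegral.continuous_parametric_intervalIntegral_of_continuous' h1 0 Real.pi
  have h3 : Continuous (Function.uncurry fun (g : GL (Fin 2) ℂ) (α : ℝ) =>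
      ∫ β in (0 : ℝ)..Real.pi, Φ (g * y α β) * ((Real.sin β : ℝ) : ℂ)) := h2
  exact intervalIntegral.continuous_parametric_intervalIntegral_of_continuous' h3 0 (2 * Real.pi)

theorem sphMeanC_eq_zero922 {Φ : GL (Fin 2) ℂ → ℂ} {g : GL (Fin 2) ℂ}
    (h0 : ∀ α ∈ Icc (0 : ℝ) (2 * Real.pi), ∀ β ∈ Icc (0 : ℝ) Real.pi, Φ (g * y α β) = 0) :
    sphMeanC445 y Φ g = 0 := by
  have hpi : (0 : ℝ) ≤ Real.pi := Real.pi_pos.le
  have h2pi : (0 : ℝ) ≤ 2 * Real.pi := by positivity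
  rw [sphMeanC_apply922]
  have e1 : Set.EqOn (fun α : ℝ => ∫ β in (0 : ℝ)..Real.pi,
      Φ (g * y α β) * ((Real.sin β : ℝ) : ℂ)) (fun _ => (0 : ℂ)) (Set.uIcc 0 (2 * Real.pi)) := by
    intro α hα
    rw [Set.uIcc_of_le h2pi] at hα
    show ∫ β in (0 : ℝ)..Real.pi, Φ (g * y α β) * ((Real.sin β : ℝ) : ℂ) = 0
    have e2 : Set.EqOn (fun β : ℝ => Φ (g * y α β) * ((Real.sin β : ℝ) : ℂ))
        (fun _ => (0 : ℂ)) (Set.uIcc 0 Real.pi) := by
      intro β hβ
      rw [Set.uIcc_of_le hpi] at hβ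
      show Φ (g * y α β) * ((Real.sin β : ℝ) : ℂ) = 0
      rw [h0 α hα β hβ, zero_mul]
    rw [intervalIntegral.integral_congr e2]
    simp
  rw [intervalIntegral.integral_congr e1]
  simp

theorem hasCompactSupport_sphMeanC922 (hy : IsSphC445 d y) {Φ : GL (Fin 2) ℂ → ℂ}
    (hΦs : HasCompactSupport Φ) : HasCompactSupport (sphMeanC445 y Φ) := by
  have hyc := continuous_sph922 hy
  set B : Set (ℝ × ℝ) := Icc 0 (2 * Real.pi) ×ˢ Icc 0 Real.pi with hBdef
  have hB : IsCompact B := isCompact_Icc.prod isCompact_Icc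
  set Cy : Set (GL (Fin 2) ℂ) := (fun p : ℝ × ℝ => (y p.1 p.2)⁻¹) '' B with hCydef
  have hCy : IsCompact Cy := hB.image (continuous_inv.comp hyc)
  have hC : IsCompact (tsupport Φ * Cy) := IsCompact.mul hΦs hCy
  refine HasCompactSupport.intro hC fun g hg => ?_
  refine sphMeanC_eq_zero922 fun α hα β hβ => ?_
  by_contra hne
  apply hg
  refine Set.mem_mul.2 ⟨g * y α β, subset_tsupport _ hne, (y α β)⁻¹, ⟨(α, β), ⟨hα, hβ⟩, rfl⟩, ?_⟩
  group

/-- The extension to the matrices of `u ↦ Φ (a * u)`. -/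
def extM922 (Φ : GL (Fin 2) ℂ → ℂ) (a : GL (Fin 2) ℂ) (m : Matrix (Fin 2) (Fin 2) ℂ) : ℂ :=
  open Classical in if h : IsUnit m then Φ (a * h.unit) else 0

theorem extM_coe922 (Φ : GL (Fin 2) ℂ → ℂ) (a u : GL (Fin 2) ℂ) :
    extM922 Φ a (u : Matrix (Fin 2) (Fin 2) ℂ) = Φ (a * u) := by
  have hu : IsUnit (u : Matrix (Fin 2) (Fin 2) ℂ) := u.isUnit
  show (open Classical in if h : IsUnit (u : Matrix (Fin 2) (Fin 2) ℂ) then Φ (a * h.unit) else 0)
    = Φ (a * u)
  rw [dif_pos hu, IsUnit.unit_of_val_units]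

theorem extM_not922 (Φ : GL (Fin 2) ℂ → ℂ) (a : GL (Fin 2) ℂ) {m : Matrix (Fin 2) (Fin 2) ℂ}
    (hm : ¬ IsUnit m) : extM922 Φ a m = 0 := by
  show (open Classical in if h : IsUnit m then Φ (a * h.unit) else 0) = 0
  rw [dif_neg hm]

theorem continuousOn_extM922 {Φ : GL (Fin 2) ℂ → ℂ} (hΦ : Continuous Φ) (a : GL (Fin 2) ℂ) :
    ContinuousOn (extM922 Φ a) {m | m.det ≠ 0} := by
  rw [continuousOn_iff_continuous_domRestrict]
  have hU : ∀ m : {m : Matrix (Fin 2) (Fin 2) ℂ | m.det ≠ 0},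
      IsUnit (m : Matrix (Fin 2) (Fin 2) ℂ) := fun m =>
    (Matrix.isUnit_iff_isUnit_det _).2 (IsUnit.mk0 _ m.2)
  set f : {m : Matrix (Fin 2) (Fin 2) ℂ | m.det ≠ 0} → GL (Fin 2) ℂ := fun m => (hU m).unit
    with hf
  have hfc : Continuous f := by
    apply continuous_GL_of_val922
    have e : (fun m => ((f m : GL (Fin 2) ℂ) : Matrix (Fin 2) (Fin 2) ℂ))
        = fun m : {m : Matrix (Fin 2) (Fin 2) ℂ | m.det ≠ 0} =>
          (m : Matrix (Fin 2) (Fin 2) ℂ) := funext fun m => (hU m).unit_spec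
    rw [e]
    exact continuous_subtype_val
  have e : Set.domRestrict {m : Matrix (Fin 2) (Fin 2) ℂ | m.det ≠ 0} (extM922 Φ a)
      = fun m => Φ (a * f m) := by
    funext m
    show extM922 Φ a (m : Matrix (Fin 2) (Fin 2) ℂ) = Φ (a * f m)
    have h1 : (m : Matrix (Fin 2) (Fin 2) ℂ) = ((f m : GL (Fin 2) ℂ) : Matrix (Fin 2) (Fin 2) ℂ) :=
      ((hU m).unit_spec).symm
    rw [h1, extM_coe922]
  rw [e]
  exact hΦ.comp (continuous_const.mul hfc)

theorem extM_inv922 {Φ : GL (Fin 2) ℂ → ℂ} (hΦ : IsBiU44 Φ) (a : GL (Fin 2) ℂ)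
    (m k : Matrix (Fin 2) (Fin 2) ℂ) (hk : k * k.conjTranspose = 1) :
    extM922 Φ a (m * k) = extM922 Φ a m := by
  have hone : ((1 : GL (Fin 2) ℂ) : Matrix (Fin 2) (Fin 2) ℂ)
      * ((1 : GL (Fin 2) ℂ) : Matrix (Fin 2) (Fin 2) ℂ).conjTranspose = 1 := by simp
  set Kk : GL (Fin 2) ℂ := unitGL44 k hk with hKk
  have hKv : ((Kk : GL (Fin 2) ℂ) : Matrix (Fin 2) (Fin 2) ℂ) = k := rfl
  by_cases hm : IsUnit m
  · set u : GL (Fin 2) ℂ := hm.unit with hu
    have hmu : m = ((u : GL (Fin 2) ℂ) : Matrix (Fin 2) (Fin 2) ℂ) := (hm.unit_spec).symm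
    have e1 : m * k = (((u * Kk : GL (Fin 2) ℂ)) : Matrix (Fin 2) (Fin 2) ℂ) := by
      rw [Matrix.GeneralLinearGroup.coe_mul, hKv, ← hmu]
    rw [e1, extM_coe922, hmu, extM_coe922]
    have e2 : a * (u * Kk) = 1 * (a * u) * Kk := by group
    rw [e2]
    exact hΦ 1 Kk (a * u) hone hk
  · have hmk : ¬ IsUnit (m * k) := by
      intro h
      apply hm
      have e : m = m * k * k.conjTranspose := by
        rw [Matrix.mul_assoc, hk, Matrix.mul_one]
      rw [e]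
      exact h.mul (Kk⁻¹).isUnit
    rw [extM_not922 Φ a hm, extM_not922 Φ a hmk]

/-- The local sphere mean of a continuous bi-invariant function is bi-invariant. -/
theorem isBiU_sphMeanC922 (hy : IsSphC445 d y) {Φ : GL (Fin 2) ℂ → ℂ} (hΦ : Continuous Φ)
    (hb : IsBiU44 Φ) : IsBiU44 (sphMeanC445 y Φ) := by
  intro k₁ k₂ g h1 h2
  have hone : ((1 : GL (Fin 2) ℂ) : Matrix (Fin 2) (Fin 2) ℂ)
      * ((1 : GL (Fin 2) ℂ) : Matrix (Fin 2) (Fin 2) ℂ).conjTranspose = 1 := by simp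
  have hrot := Fermat.Agent.LT.T2.H197.subS2Rot_stmt197 (extM922 Φ (k₁ * g))
    (continuousOn_extM922 hΦ (k₁ * g)) (extM_inv922 hb (k₁ * g))
    (k₂ : Matrix (Fin 2) (Fin 2) ℂ) h2 d
  have eL : ∀ α β : ℝ, extM922 Φ (k₁ * g)
      ((k₂ : Matrix (Fin 2) (Fin 2) ℂ) * (rotZ α * rotY β * torus d))
      = Φ (k₁ * g * k₂ * y α β) := by
    intro α β
    have e : (k₂ : Matrix (Fin 2) (Fin 2) ℂ) * (rotZ α * rotY β * torus d)
        = (((k₂ * y α β : GL (Fin 2) ℂ)) : Matrix (Fin 2) (Fin 2) ℂ) := by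
      rw [Matrix.GeneralLinearGroup.coe_mul, hy α β]
    have e' : k₁ * g * (k₂ * y α β) = k₁ * g * k₂ * y α β := by group
    rw [e, extM_coe922, e']
  have eR : ∀ α β : ℝ, extM922 Φ (k₁ * g) (rotZ α * rotY β * torus d)
      = Φ (g * y α β) := by
    intro α β
    rw [← hy α β, extM_coe922]
    have e : k₁ * g * y α β = k₁ * (g * y α β) * 1 := by group
    rw [e]
    exact hb k₁ 1 (g * y α β) h1 hone
  rw [sphMeanC_apply922, sphMeanC_apply922]
  simp only [eL, eR] at hrot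
  exact hrot

end Mean

end Fermat.Agent.LT.T7.H922

end
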